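/-
S52 (the 3–5 switch), node [NOS-5] (helper10), file 1: SHORT WEIERSTRASS CURVES `y² = x³ + a x + b`
and points of order `5` on them.  Prefix `s52n_`.  Mathlib only.

* `s52n_short a b` and its invariants (`Δ = -16 (4 a³ + 27 b²)`, `c₄ = -48 a`), base change;
* `s52n_not_cusp` : in characteristic `≠ 2, 3`, `(a, b) ≠ (0, 0)` ⟹ `Δ ≠ 0 ∨ (Δ = 0 ∧ c₄ ≠ 0)`;
* `s52n_good_point` : a point `Q` with `5 • Q = 0`, `Q ≠ 0`: `Q` or `2 • Q` is an affine point
  `(x, y)` with `x ≠ 0` and `y ≠ 0`.
-/
import Mathlib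

set_option autoImplicit false

namespace Fermat.Agent.S52

open WeierstrassCurve WeierstrassCurve.Affine

/-- the short Weierstrass curve `y² = x³ + a x + b`. -/
def s52n_short {R : Type*} [CommRing R] (a b : R) : WeierstrassCurve R := ⟨0, 0, 0, a, b⟩

section Invariants

variable {R : Type*} [CommRing R] (a b : R)

@[simp] theorem s52n_short_a₁ : (s52n_short a b).a₁ = 0 := rfl
@[simp] theorem s52n_short_a₂ : (s52n_short a b).a₂ = 0 := rfl
@[simp] theorem s52n_short_a₃ : (s52n_short a b).a₃ = 0 := rfl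
@[simp] theorem s52n_short_a₄ : (s52n_short a b).a₄ = a := rfl
@[simp] theorem s52n_short_a₆ : (s52n_short a b).a₆ = b := rfl

theorem s52n_short_Δ : (s52n_short a b).Δ = -16 * (4 * a ^ 3 + 27 * b ^ 2) := by
  simp only [WeierstrassCurve.Δ, WeierstrassCurve.b₂, WeierstrassCurve.b₄, WeierstrassCurve.b₆,
    WeierstrassCurve.b₈, s52n_short_a₁, s52n_short_a₂, s52n_short_a₃, s52n_short_a₄,
    s52n_short_a₆]
  ring

theorem s52n_short_c₄ : (s52n_short a b).c₄ = -48 * a := by
  simp only [WeierstrassCurve.c₄, WeierstrassCurve.b₂, WeierstrassCurve.b₄, s52n_short_a₁,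
    s52n_short_a₂, s52n_short_a₃, s52n_short_a₄]
  ring

theorem s52n_short_map {S : Type*} [CommRing S] (f : R →+* S) :
    (s52n_short a b).map f = s52n_short (f a) (f b) := by
  ext <;> simp [s52n_short, WeierstrassCurve.map]

theorem s52n_short_negY (x y : R) : (s52n_short a b).toAffine.negY x y = -y := by
  simp [Affine.negY]

end Invariants

section Field

variable {k : Type*} [Field k] (a b : k)

/-- not a cusp: in characteristic `≠ 2, 3` a short curve with `(a, b) ≠ (0, 0)` is smooth or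
nodal. -/
theorem s52n_not_cusp (h2 : (2 : k) ≠ 0) (h3 : (3 : k) ≠ 0) (hab : a ≠ 0 ∨ b ≠ 0) :
    (s52n_short a b).Δ ≠ 0 ∨ ((s52n_short a b).Δ = 0 ∧ (s52n_short a b).c₄ ≠ 0) := by
  by_cases hΔ : (s52n_short a b).Δ = 0
  · right
    refine ⟨hΔ, ?_⟩
    rw [s52n_short_c₄]
    intro h0
    have h48 : (48 : k) ≠ 0 := by
      have : (48 : k) = 2 ^ 4 * 3 := by norm_num
      rw [this]
      exact mul_ne_zero (pow_ne_zero _ h2) h3
    have ha : a = 0 := by
      rcases mul_eq_zero.mp h0 with h | h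
      · exact absurd (neg_eq_zero.mp h) h48
      · exact h
    rw [s52n_short_Δ, ha] at hΔ
    have h16 : (-16 : k) ≠ 0 := by
      have : (-16 : k) = -(2 ^ 4) := by norm_num
      rw [this]
      exact neg_ne_zero.mpr (pow_ne_zero _ h2)
    have h27 : (27 : k) ≠ 0 := by
      have : (27 : k) = 3 ^ 3 := by norm_num
      rw [this]
      exact pow_ne_zero _ h3
    have hb : b = 0 := by
      rcases mul_eq_zero.mp hΔ with h | h
      · exact absurd h h16
      · have h' : 27 * b ^ 2 = 0 := by simpa using h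
        rcases mul_eq_zero.mp h' with h'' | h''
        · exact absurd h'' h27
        · exact pow_eq_zero_iff (two_ne_zero) |>.mp h''
    rcases hab with h | h
    · exact h ha
    · exact h hb
  · exact Or.inl hΔ

variable [DecidableEq k]

/-- a point of a short curve is "good" if it is affine with both coordinates nonzero. -/
def s52n_Good (Q : (s52n_short a b).toAffine.Point) : Prop :=
  ∃ (x y : k) (h : (s52n_short a b).toAffine.Nonsingular x y), Q = Point.some x y h ∧ x ≠ 0 ∧ y ≠ 0

variable {a b}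

/-- a point of order `5` has `y ≠ 0`. -/
theorem s52n_y_ne_zero {x y : k}
    {h : (s52n_short a b).toAffine.Nonsingular x y} (h5 : 5 • Point.some x y h = 0) : y ≠ 0 := by
  intro hy
  have hneg : -Point.some x y h = Point.some x y h := by
    rw [Point.neg_some]
    congr 1
    rw [s52n_short_negY, hy, neg_zero]
  have h2P : 2 • Point.some x y h = 0 := by
    rw [two_nsmul]
    nth_rewrite 1 [← hneg]
    exact neg_add_cancel _
  have h1 : Point.some x y h = 5 • Point.some x y h - 2 • (2 • Point.some x y h) := by abel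
  rw [h5, h2P, smul_zero, sub_zero] at h1
  exact Point.some_ne_zero h h1

/-- **a point of exact order `5`: `Q` or `2 • Q` has both coordinates nonzero.** -/
theorem s52n_good_point {Q : (s52n_short a b).toAffine.Point}
    (h5 : 5 • Q = 0) (hQ : Q ≠ 0) : s52n_Good a b Q ∨ s52n_Good a b (2 • Q) := by
  have h2Q : 2 • Q ≠ 0 := by
    intro h0
    apply hQ
    have h1 : Q = 5 • Q - 2 • (2 • Q) := by abel
    rw [h5, h0, smul_zero, sub_zero] at h1
    exact h1
  have h52 : 5 • (2 • Q) = 0 := by rw [smul_comm, h5, smul_zero]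
  obtain ⟨x, y, h, hQ'⟩ : ∃ x y h, Q = Point.some x y h := by
    rcases Q with _ | ⟨x, y, h⟩
    · exact absurd rfl hQ
    · exact ⟨x, y, h, rfl⟩
  obtain ⟨x₂, y₂, h', hQ2⟩ : ∃ x y h, 2 • Q = Point.some x y h := by
    rcases hR : 2 • Q with _ | ⟨x, y, h⟩
    · exact absurd hR h2Q
    · exact ⟨x, y, h, rfl⟩
  have hy : y ≠ 0 := s52n_y_ne_zero (h := h) (by rw [← hQ', h5])
  have hy₂ : y₂ ≠ 0 := s52n_y_ne_zero (h := h') (by rw [← hQ2, h52])
  by_cases hx : x = 0
  · right
    refine ⟨x₂, y₂, h', hQ2, ?_, hy₂⟩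
    intro hx₂
    -- `x = x₂`, so `2 • Q = ± Q`
    have hxx : x₂ = x := by rw [hx, hx₂]
    rcases Y_eq_of_X_eq h'.1 h.1 hxx with hyy | hyy
    · -- `2 • Q = Q`
      apply hQ
      have h3 : 2 • Q = Q := by
        rw [hQ2, hQ']
        subst hxx hyy
        rfl
      have : Q + Q = Q + 0 := by rw [← two_nsmul, h3, add_zero]
      exact add_left_cancel this
    · -- `2 • Q = -Q`
      apply hQ
      have h3 : 2 • Q = -Q := by
        rw [hQ2, hQ', Point.neg_some]
        subst hxx hyy
        rfl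
      have h4 : 3 • Q = 0 := by
        rw [show (3 : ℕ) = 2 + 1 from rfl, add_nsmul, one_nsmul, h3, neg_add_cancel]
      have h1 : Q = 2 • (3 • Q) - 5 • Q := by abel
      rw [h4, h5, smul_zero, sub_zero] at h1
      exact h1
  · left
    exact ⟨x, y, h, hQ', hx, hy⟩

end Field

end Fermat.Agent.S52
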