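/-
S52 (the 3–5 switch), node [NOS-5] (helper10), file 2: A UNIT POINT OF ORDER `5`.

`F` algebraically closed of characteristic `0`, `A` a valuation subring with `30 ∈ Aˣ`,
`a b ∈ A` not both in the maximal ideal, `4 a³ + 27 b² ≠ 0`.  Then `y² = x³ + a x + b` has a point
`(X, Y)` of order `5` with `X, Y ∈ Aˣ` (`s52n_unit_point`).

Proof: the reduction is smooth or nodal (`s52n_not_cusp`); in both cases there is a point `P` of
exact order `5` in `E₀` (good: `s58m_exists_order_char_zero`; nodal: `s58m_exists_prime_pow_order`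
+ `s58m_exists_torsion_lift`); its reduction has exact order `5` (`s58r_red_injective_on_torsion`),
hence `P̄` or `2 P̄` has both coordinates nonzero (`s52n_good_point`).  Prefix `s52n_`.
-/
import Mathlib
import Fermat.Agent.S52.NOS.Short
import Fermat.Agent.S58.Mult.Fix

set_option autoImplicit false

namespace Fermat.Agent.S52

open WeierstrassCurve WeierstrassCurve.Affine IsLocalRing Fermat.Agent.S58

section Val

variable {F : Type*} [Field F] (A : ValuationSubring F)

theorem s52n_val_natCast_le (n : ℕ) : A.valuation (n : F) ≤ 1 :=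
  (A.valuation_le_one_iff _).mpr (natCast_mem A n)

/-- `30` is a unit of `A` ⟹ `2`, `3`, `5` are units of `A`. -/
theorem s52n_val_235 (h30 : A.valuation (30 : F) = 1) :
    A.valuation (2 : F) = 1 ∧ A.valuation (3 : F) = 1 ∧ A.valuation (5 : F) = 1 := by
  have h2 : A.valuation (2 : F) ≤ 1 := by exact_mod_cast s52n_val_natCast_le A 2
  have h3 : A.valuation (3 : F) ≤ 1 := by exact_mod_cast s52n_val_natCast_le A 3
  have h5 : A.valuation (5 : F) ≤ 1 := by exact_mod_cast s52n_val_natCast_le A 5
  have h : A.valuation (2 : F) * A.valuation (3 : F) * A.valuation (5 : F) = 1 := by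
    rw [← map_mul, ← map_mul, ← h30]
    congr 1
    norm_num
  refine ⟨le_antisymm h2 ?_, le_antisymm h3 ?_, le_antisymm h5 ?_⟩
  · calc (1 : _) = A.valuation (2 : F) * A.valuation (3 : F) * A.valuation (5 : F) := h.symm
      _ ≤ A.valuation (2 : F) * 1 * 1 := by gcongr
      _ = A.valuation (2 : F) := by rw [mul_one, mul_one]
  · calc (1 : _) = A.valuation (2 : F) * A.valuation (3 : F) * A.valuation (5 : F) := h.symm
      _ ≤ 1 * A.valuation (3 : F) * 1 := by gcongr
      _ = A.valuation (3 : F) := by rw [mul_one, one_mul]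
  · calc (1 : _) = A.valuation (2 : F) * A.valuation (3 : F) * A.valuation (5 : F) := h.symm
      _ ≤ 1 * 1 * A.valuation (5 : F) := by gcongr
      _ = A.valuation (5 : F) := by rw [one_mul, one_mul]

/-- the residue of `x ∈ A` is nonzero iff `x` is a unit -/
theorem s52n_residue_ne_zero_iff (x : A) : residue A x ≠ 0 ↔ A.valuation (x : F) = 1 := by
  rw [Ne, residue_eq_zero_iff, A.valuation_lt_one_iff]
  have hle : A.valuation (x : F) ≤ 1 := (A.valuation_le_one_iff _).mpr x.2
  constructor
  · intro h
    exact le_antisymm hle (not_lt.mp h)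
  · intro h
    rw [h]
    exact lt_irrefl _

/-- a natural number which is a unit of `A` is nonzero in the residue field -/
theorem s52n_natCast_residue_ne_zero (n : ℕ) (h : A.valuation (n : F) = 1) :
    (n : ResidueField A) ≠ 0 := by
  have h1 : A.valuation (((n : A)) : F) = 1 := by
    rw [show (((n : A)) : F) = (n : F) from rfl]; exact h
  have := (s52n_residue_ne_zero_iff A (n : A)).mpr h1
  rwa [map_natCast] at this

end Val

section Point

variable {F : Type*} [Field F] {A : ValuationSubring F}

/-- a point reducing to an affine point `(x, y)` is integral with residues `x, y`. -/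
theorem s52n_redTo_some {W : Affine F} {Wk : Affine (ResidueField A)} {P : W.Point}
    {x y : ResidueField A} {h : Wk.Nonsingular x y} (hP : s58r_RedTo A P (Point.some x y h)) :
    ∃ (a' b' : A) (h' : W.Nonsingular (a' : F) (b' : F)),
      P = Point.some (a' : F) (b' : F) h' ∧ residue A a' = x ∧ residue A b' = y := by
  generalize hR : Point.some x y h = R at hP
  cases hP with
  | zero => exact absurd hR (Point.some_ne_zero h)
  | inf h₁ hx₁ => exact absurd hR (Point.some_ne_zero h)
  | aff a' b' h₁ h₁' =>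
    obtain ⟨hx, hy⟩ := Point.some.inj hR
    exact ⟨a', b', h₁, rfl, hx.symm, hy.symm⟩

end Point

section Main

variable {F : Type*} [Field F] [IsAlgClosed F] [CharZero F] [DecidableEq F]
  (A : ValuationSubring F)

/-- **the unit point of order `5`.** -/
theorem s52n_unit_point (h30 : A.valuation (30 : F) = 1) (a b : A)
    (hab : A.valuation (a : F) = 1 ∨ A.valuation (b : F) = 1)
    (hΔ : 4 * (a : F) ^ 3 + 27 * (b : F) ^ 2 ≠ 0) :
    ∃ (X Y : F) (h : (s52n_short (a : F) (b : F)).toAffine.Nonsingular X Y),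
      5 • Point.some X Y h = 0 ∧ A.valuation X = 1 ∧ A.valuation Y = 1 := by
  classical
  obtain ⟨hv2, hv3, hv5⟩ := s52n_val_235 A h30
  have hclosed : IsAlgClosed (ResidueField A) := s58m_residue_isAlgClosed A
  -- the model
  set W : Affine F := s52n_short (a : F) (b : F) with hW
  set Wk : Affine (ResidueField A) := s52n_short (residue A a) (residue A b) with hWk
  have hM : s58r_Model A W Wk :=
    ⟨s52n_short a b, s52n_short_map a b A.subtype, s52n_short_map a b (residue A)⟩
  have hΔW : W.Δ ≠ 0 := by
    rw [hW, s52n_short_Δ]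
    exact mul_ne_zero (by norm_num) hΔ
  -- residue characteristic
  have hv5' : A.valuation (((5 : ℕ)) : F) = 1 := by exact_mod_cast hv5
  have h2k : (2 : ResidueField A) ≠ 0 := by
    exact_mod_cast s52n_natCast_residue_ne_zero A 2 (by exact_mod_cast hv2)
  have h3k : (3 : ResidueField A) ≠ 0 := by
    exact_mod_cast s52n_natCast_residue_ne_zero A 3 (by exact_mod_cast hv3)
  have h5k : ((5 : ℕ) : ResidueField A) ≠ 0 := s52n_natCast_residue_ne_zero A 5 hv5'
  have habk : residue A a ≠ 0 ∨ residue A b ≠ 0 :=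
    hab.imp (s52n_residue_ne_zero_iff A a).mpr (s52n_residue_ne_zero_iff A b).mpr
  -- a point of exact order `5` in `E₀`
  obtain ⟨P, hP5, hP0⟩ : ∃ P : s58r_E0 hM, 5 • (P : W.Point) = 0 ∧ (P : W.Point) ≠ 0 := by
    rcases s52n_not_cusp (residue A a) (residue A b) h2k h3k habk with hgood | ⟨hΔk, hc4k⟩
    · obtain ⟨P, h1, h2⟩ := s58m_exists_order_char_zero W hΔW Nat.prime_five (by norm_num) 0
      refine ⟨⟨P, s58r_mem_E0_of_good hM hgood P⟩, ?_, ?_⟩
      · simpa using h1
      · simpa using h2
    · obtain ⟨Q, hQ1, hQ2⟩ := s58m_exists_prime_pow_order Wk hΔk hc4k 5 Nat.prime_five h5k 0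
      have hQ1' : 5 • Q = 0 := by simpa using hQ1
      have hQ2' : Q ≠ 0 := by simpa using hQ2
      obtain ⟨P, hP1, hP2⟩ := s58m_exists_torsion_lift hM hΔW hv5' hQ1'
      refine ⟨P, hP1, fun h0 => hQ2' ?_⟩
      have : P = 0 := Subtype.ext h0
      rw [← hP2, this, map_zero]
  -- its reduction has exact order `5`
  have key : ∀ P' : s58r_E0 hM, 5 • (P' : W.Point) = 0 → s52n_Good (residue A a) (residue A b)
      (s58r_red hM P') → ∃ (X Y : F) (h : W.Nonsingular X Y),
      5 • Point.some X Y h = 0 ∧ A.valuation X = 1 ∧ A.valuation Y = 1 := by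
    rintro P' hP' ⟨x, y, h, hQ, hx, hy⟩
    have hs := s58r_red_spec hM P'
    rw [hQ] at hs
    obtain ⟨a', b', h', hPe, hxa, hyb⟩ := s52n_redTo_some hs
    refine ⟨a', b', h', ?_, ?_, ?_⟩
    · rw [← hPe]; exact hP'
    · exact (s52n_residue_ne_zero_iff A a').mp (by rw [hxa]; exact hx)
    · exact (s52n_residue_ne_zero_iff A b').mp (by rw [hyb]; exact hy)
  have hQ5 : 5 • s58r_red hM P = 0 := by
    rw [← map_nsmul]
    have : 5 • P = 0 := Subtype.ext (by rw [AddSubgroup.coe_nsmul]; exact hP5)
    rw [this, map_zero]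
  have hQ0 : s58r_red hM P ≠ 0 := by
    intro h0
    have := s58r_red_injective_on_torsion hM hv5' hP5 h0
    exact hP0 (by rw [this]; rfl)
  rcases s52n_good_point hQ5 hQ0 with hg | hg
  · exact key P hP5 hg
  · refine key (2 • P) ?_ (by rw [map_nsmul]; exact hg)
    rw [AddSubgroup.coe_nsmul, smul_comm, hP5, smul_zero]

end Main

end Fermat.Agent.S52
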