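/-
S52 (the 3–5 switch), node [NOS-5] (helper10), file 3: THE LOCAL SEMISTABILITY INPUT.

`Ω` algebraically closed of characteristic `0`, `A` a valuation subring of `Ω` with `30 ∈ Aˣ`,
`E : y² = x³ + a x + b` over `Ω` (`4 a³ + 27 b² ≠ 0`), `K' ⊆ Ω` a subfield over which all points of
order `5` of `E` are rational.  Then there is `c ∈ K'ˣ` such that the model
`(a / c⁴, b / c⁶)` is `A`-integral and not cuspidal modulo the maximal ideal of `A`
(`s52n_main`): `E` has good or multiplicative reduction at `A` over `K'`, "no new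
semistability failure".

Proof: choose `u ∈ Ω` with `(a / u⁴, b / u⁶)` integral and not both in the maximal ideal
(`s52n_exists_scale`); `s52n_unit_point` gives a point `(X, Y)` of order `5` on the scaled curve
with `X, Y ∈ Aˣ`; `(x, y) = (u² X, u³ Y)` is a point of order `5` of `E` (`lrvc_map`), so
`c := y / x ∈ K'` and `v(c) = v(u)`.  Prefix `s52n_`.
-/
import Mathlib
import Fermat.Agent.S52.NOS.Unit
import Fermat.Agent.LR.NonEis.VarChange

set_option autoImplicit false

namespace Fermat.Agent.S52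

open WeierstrassCurve WeierstrassCurve.Affine Fermat.Agent.LR

section Scale

variable {Ω : Type*} [Field Ω]

/-- the scaling change of variables `(x, y) ↦ (u⁻² x, u⁻³ y)` -/
def s52n_C (u : Ωˣ) : VariableChange Ω := ⟨u, 0, 0, 0⟩

theorem s52n_C_smul (u : Ωˣ) (a b : Ω) :
    s52n_C u • s52n_short a b = s52n_short ((↑u⁻¹ : Ω) ^ 4 * a) ((↑u⁻¹ : Ω) ^ 6 * b) := by
  rw [variableChange_def]
  ext <;> simp [s52n_C, s52n_short]

/-- the change of variables commutes with multiplication by `k` -/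
theorem s52n_map_nsmul [DecidableEq Ω] (C : VariableChange Ω) (W : Affine Ω) {W' : Affine Ω}
    (hW : C • W = W') (hΔ : W.Δ ≠ 0) (k : ℕ) (P : W.Point) :
    lrvc_map C W hW hΔ (k • P) = k • lrvc_map C W hW hΔ P := by
  induction k with
  | zero => rw [zero_nsmul, zero_nsmul, lrvc_map_zero]
  | succ k ih => rw [succ_nsmul, succ_nsmul, lrvc_map_add, ih]

/-- **choice of the scaling**: `(a / u⁴, b / u⁶)` integral, one of them a unit. -/
theorem s52n_exists_scale [IsAlgClosed Ω] (A : ValuationSubring Ω) (a b : Ω)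
    (hab : a ≠ 0 ∨ b ≠ 0) :
    ∃ u : Ω, u ≠ 0 ∧ A.valuation (a / u ^ 4) ≤ 1 ∧ A.valuation (b / u ^ 6) ≤ 1 ∧
      (A.valuation (a / u ^ 4) = 1 ∨ A.valuation (b / u ^ 6) = 1) := by
  by_cases h : a ≠ 0 ∧ A.valuation b ^ 2 ≤ A.valuation a ^ 3
  · obtain ⟨ha, hle⟩ := h
    obtain ⟨u, hu⟩ := IsAlgClosed.exists_pow_nat_eq a (n := 4) (by norm_num)
    have hu0 : u ≠ 0 := by
      rintro rfl
      exact ha (by rw [← hu]; norm_num)
    have hvu : A.valuation u ≠ 0 := (Valuation.ne_zero_iff _).mpr hu0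
    have h1 : a / u ^ 4 = 1 := by rw [hu, div_self ha]
    have h2 : A.valuation b ≤ A.valuation u ^ 6 := by
      have : A.valuation b ^ 2 ≤ (A.valuation u ^ 6) ^ 2 := by
        calc A.valuation b ^ 2 ≤ A.valuation a ^ 3 := hle
          _ = (A.valuation u ^ 6) ^ 2 := by rw [← hu, map_pow, ← pow_mul, ← pow_mul]
      exact (pow_le_pow_iff_left₀ zero_le zero_le two_ne_zero).mp this
    refine ⟨u, hu0, ?_, ?_, Or.inl ?_⟩
    · rw [h1, map_one]
    · rw [map_div₀, map_pow]
      exact div_le_one_of_le₀ h2 zero_le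
    · rw [h1, map_one]
  · have hb : b ≠ 0 := by
      by_cases ha : a = 0
      · exact hab.resolve_left (not_not.mpr ha)
      · have hlt : A.valuation a ^ 3 < A.valuation b ^ 2 := by
          by_contra hcon
          exact h ⟨ha, not_lt.mp hcon⟩
        rintro rfl
        rw [map_zero, zero_pow two_ne_zero] at hlt
        exact not_lt_zero hlt
    have hle : A.valuation a ^ 3 ≤ A.valuation b ^ 2 := by
      by_cases ha : a = 0
      · rw [ha, map_zero, zero_pow three_ne_zero]
        exact zero_le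
      · by_contra hcon
        exact h ⟨ha, le_of_lt (not_le.mp hcon)⟩
    obtain ⟨u, hu⟩ := IsAlgClosed.exists_pow_nat_eq b (n := 6) (by norm_num)
    have hu0 : u ≠ 0 := by
      rintro rfl
      exact hb (by rw [← hu]; norm_num)
    have h1 : b / u ^ 6 = 1 := by rw [hu, div_self hb]
    have h2 : A.valuation a ≤ A.valuation u ^ 4 := by
      have : A.valuation a ^ 3 ≤ (A.valuation u ^ 4) ^ 3 := by
        calc A.valuation a ^ 3 ≤ A.valuation b ^ 2 := hle
          _ = (A.valuation u ^ 4) ^ 3 := by rw [← hu, map_pow, ← pow_mul, ← pow_mul]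
      exact (pow_le_pow_iff_left₀ zero_le zero_le three_ne_zero).mp this
    refine ⟨u, hu0, ?_, ?_, Or.inr ?_⟩
    · rw [map_div₀, map_pow]
      exact div_le_one_of_le₀ h2 zero_le
    · rw [h1, map_one]
    · rw [h1, map_one]

end Scale

section Main

variable {Ω : Type*} [Field Ω] [IsAlgClosed Ω] [CharZero Ω] [DecidableEq Ω]

/-- **[NOS-5]: no new semistability failure.**  If all points of order `5` of
`E : y² = x³ + a x + b` are rational over the subfield `K'` of the algebraically closed field `Ω`,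
and `A` is a valuation subring of `Ω` of residue characteristic `∉ {2, 3, 5}`, then some
`K'`-twist-free rescaling `(a / c⁴, b / c⁶)`, `c ∈ K'ˣ`, is `A`-integral and not cuspidal modulo
the maximal ideal of `A`. -/
theorem s52n_main (A : ValuationSubring Ω) (h30 : A.valuation (30 : Ω) = 1) (a b : Ω)
    (hΔ : 4 * a ^ 3 + 27 * b ^ 2 ≠ 0) (K' : Subfield Ω)
    (h5 : ∀ P : (s52n_short a b).toAffine.Point, 5 • P = 0 →
      ∀ (x y : Ω) (h : (s52n_short a b).toAffine.Nonsingular x y), P = Point.some x y h →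
        x ∈ K' ∧ y ∈ K') :
    ∃ c ∈ K', c ≠ 0 ∧ A.valuation (a / c ^ 4) ≤ 1 ∧ A.valuation (b / c ^ 6) ≤ 1 ∧
      (A.valuation (a / c ^ 4) = 1 ∨ A.valuation (b / c ^ 6) = 1) := by
  have hab : a ≠ 0 ∨ b ≠ 0 := by
    by_contra hcon
    push Not at hcon
    apply hΔ
    rw [hcon.1, hcon.2]
    ring
  obtain ⟨u, hu0, ha', hb', hunit⟩ := s52n_exists_scale A a b hab
  -- the scaled curve
  set a' : A := ⟨a / u ^ 4, (A.valuation_le_one_iff _).mp ha'⟩ with ha'def
  set b' : A := ⟨b / u ^ 6, (A.valuation_le_one_iff _).mp hb'⟩ with hb'def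
  have hΔ' : 4 * (a' : Ω) ^ 3 + 27 * (b' : Ω) ^ 2 ≠ 0 := by
    have : 4 * (a' : Ω) ^ 3 + 27 * (b' : Ω) ^ 2 = (4 * a ^ 3 + 27 * b ^ 2) / u ^ 12 := by
      show 4 * (a / u ^ 4) ^ 3 + 27 * (b / u ^ 6) ^ 2 = _
      field_simp
    rw [this]
    exact div_ne_zero hΔ (pow_ne_zero _ hu0)
  obtain ⟨X, Y, h, h5XY, hX, hY⟩ := s52n_unit_point A h30 a' b' hunit hΔ'
  have hX0 : X ≠ 0 := by
    rintro rfl
    rw [map_zero] at hX
    exact zero_ne_one hX
  have hY0 : Y ≠ 0 := by
    rintro rfl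
    rw [map_zero] at hY
    exact zero_ne_one hY
  -- the change of variables
  set C : VariableChange Ω := s52n_C (Units.mk0 u hu0) with hCdef
  have hC : C • s52n_short a b = s52n_short (a' : Ω) (b' : Ω) := by
    rw [hCdef, s52n_C_smul]
    show s52n_short _ _ = s52n_short (a / u ^ 4) (b / u ^ 6)
    congr 1
    · rw [Units.val_inv_eq_inv_val, Units.val_mk0, inv_pow, div_eq_inv_mul]
    · rw [Units.val_inv_eq_inv_val, Units.val_mk0, inv_pow, div_eq_inv_mul]
  have hΔW : (s52n_short a b).toAffine.Δ ≠ 0 := by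
    rw [s52n_short_Δ]
    exact mul_ne_zero (by norm_num) hΔ
  obtain ⟨P, hP⟩ := lrvc_map_surjective C (s52n_short a b) hC hΔW (Point.some X Y h)
  have h5P : 5 • P = 0 := by
    apply lrvc_map_injective C (s52n_short a b) hC hΔW
    rw [s52n_map_nsmul, hP, h5XY, lrvc_map_zero]
  rcases P with _ | ⟨x, y, hxy⟩
  · exact absurd hP.symm (Point.some_ne_zero h)
  · obtain ⟨hxK, hyK⟩ := h5 _ h5P x y hxy rfl
    rw [lrvc_map_some] at hP
    obtain ⟨hXx, hYy⟩ := Point.some.inj hP
    have hinv : (↑C.u⁻¹ : Ω) = u⁻¹ := by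
      rw [hCdef]
      show (↑(Units.mk0 u hu0)⁻¹ : Ω) = u⁻¹
      rw [Units.val_inv_eq_inv_val, Units.val_mk0]
    have hx : x = u ^ 2 * X := by
      rw [← hXx, lrvc_X, hinv]
      show x = u ^ 2 * (u⁻¹ ^ 2 * (x - 0))
      field_simp
      ring
    have hy : y = u ^ 3 * Y := by
      rw [← hYy, lrvc_Y, hinv]
      show y = u ^ 3 * (u⁻¹ ^ 3 * (y - 0 * (x - 0) - 0))
      field_simp
      ring
    have hx0 : x ≠ 0 := by rw [hx]; exact mul_ne_zero (pow_ne_zero _ hu0) hX0
    have hy0 : y ≠ 0 := by rw [hy]; exact mul_ne_zero (pow_ne_zero _ hu0) hY0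
    have hvc : A.valuation (y / x) = A.valuation u := by
      have : y / x = u * (Y / X) := by
        rw [hx, hy]
        field_simp
      rw [this, map_mul, map_div₀, hX, hY, div_one, mul_one]
    have h4 : A.valuation (a / (y / x) ^ 4) = A.valuation (a / u ^ 4) := by
      rw [map_div₀, map_pow, hvc, ← map_pow, ← map_div₀]
    have h6 : A.valuation (b / (y / x) ^ 6) = A.valuation (b / u ^ 6) := by
      rw [map_div₀, map_pow, hvc, ← map_pow, ← map_div₀]
    refine ⟨y / x, div_mem hyK hxK, div_ne_zero hy0 hx0, ?_, ?_, ?_⟩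
    · rw [h4]; exact ha'
    · rw [h6]; exact hb'
    · rw [h4, h6]; exact hunit

end Main

end Fermat.Agent.S52
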